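import Fermat.Agent.DecomposableForms.Criterion

/-!
# Hyperplanes in general position

In dimension `d`, at least `2 d - 1` forms in general position are connected, at most `2 d - 2` are
not, and `d + 1` forms confine the unit points to finitely many hyperplanes.
-/

set_option autoImplicit false

noncomputable section

open NumberField IsDedekindDomain Finset

namespace FA.DecomposableForms

variable {K : Type*} [Field K] [NumberField K] {V : Type*} [AddCommGroup V] [Module K V]
variable {ι : Type*}

/-- At most `dim V` of the forms are always independent. -/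
def InGeneralPosition (l : ι → Module.Dual K V) : Prop :=
  ∀ T : Finset ι, T.card ≤ Module.finrank K V → LinearIndependent K fun i : T => l i

variable {l : ι → Module.Dual K V}

theorem InGeneralPosition.ne_zero (hl : InGeneralPosition l) (hV : 1 ≤ Module.finrank K V)
    (i : ι) : l i ≠ 0 :=
  (hl {i} (by simpa using hV)).ne_zero ⟨i, mem_singleton_self i⟩

variable [FiniteDimensional K V]

theorem InGeneralPosition.span_eq_top (hl : InGeneralPosition l) {T : Finset ι}
    (hT : Module.finrank K V ≤ T.card) : Submodule.span K (l '' T) = ⊤ := by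
  classical
  obtain ⟨U, hU, hcard⟩ := exists_subset_card_eq hT
  have h1 := (hl U hcard.le).span_eq_top_of_card_eq_finrank'
    (by rw [Fintype.card_coe, hcard, Subspace.dual_finrank_eq])
  refine top_le_iff.1 (h1.symm.le.trans (Submodule.span_mono ?_))
  rintro _ ⟨i, rfl⟩
  exact ⟨i, hU i.2, rfl⟩

variable [Fintype ι] [DecidableEq ι]

/-- **Enough forms in general position are connected.** -/
theorem InGeneralPosition.connected (hl : InGeneralPosition l) (hV : 1 ≤ Module.finrank K V)
    (hcard : 2 * Module.finrank K V - 1 ≤ Fintype.card ι) : Connected l := by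
  refine ⟨?_, fun T hT hTc => ?_⟩
  · have := hl.span_eq_top (T := univ) (by rw [card_univ]; omega)
    simpa using this
  have hc := card_add_card_compl T
  by_cases h : Module.finrank K V ≤ T.card
  · obtain ⟨i, hi⟩ := hTc
    exact ⟨i, by rw [hl.span_eq_top h]; trivial, Submodule.subset_span ⟨i, hi, rfl⟩⟩
  · obtain ⟨i, hi⟩ := hT
    exact ⟨i, Submodule.subset_span ⟨i, hi, rfl⟩, by
      rw [hl.span_eq_top (T := Tᶜ) (by omega)]; trivial⟩

/-- **Fewer are not.** -/
theorem InGeneralPosition.not_connected (hl : InGeneralPosition l)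
    (h2 : 2 ≤ Fintype.card ι) (hcard : Fintype.card ι + 2 ≤ 2 * Module.finrank K V) :
    ¬Connected l := by
  rintro ⟨-, hsplit⟩
  obtain ⟨T, -, hT⟩ := exists_subset_card_eq (s := (univ : Finset ι))
    (show Fintype.card ι / 2 ≤ (univ : Finset ι).card by rw [card_univ]; omega)
  have hc := card_add_card_compl T
  obtain ⟨i, hi⟩ := hsplit T (card_pos.1 (by omega)) (card_pos.1 (by omega))
  have key : ∀ U : Finset ι, i ∉ U → U.card < Module.finrank K V →
      l i ∈ Submodule.span K (l '' U) → False := by
    intro U hiU hU hmem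
    have hind := hl (insert i U) (by rw [card_insert_of_notMem hiU]; omega)
    refine hind.notMem_span_image (s := {j | (j : ι) ∈ U})
      (x := ⟨i, mem_insert_self i U⟩) hiU ?_
    convert hmem using 2
    ext y
    exact ⟨fun ⟨j, hj, e⟩ => ⟨j, hj, e⟩, fun ⟨j, hj, e⟩ => ⟨⟨j, mem_insert_of_mem hj⟩, hj, e⟩⟩
  by_cases hiT : i ∈ T
  · exact key Tᶜ (fun h => (mem_compl.1 h) hiT) (by omega) hi.2
  · exact key T hiT (by omega) hi.1

/-- **One relation** confines the unit points to finitely many hyperplanes. -/
theorem InGeneralPosition.exists_hyperplanes (hl : InGeneralPosition l)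
    (hV : 2 ≤ Module.finrank K V) (hcard : Module.finrank K V < Fintype.card ι)
    (S : Finset (HeightOneSpectrum (𝓞 K))) :
    ∃ H : Finset (Module.Dual K V), (∀ φ ∈ H, φ ≠ 0) ∧
      ∀ x, IsUnitPoint S l x → ∃ φ ∈ H, φ x = 0 := by
  classical
  obtain ⟨T, -, hT⟩ := exists_subset_card_eq (s := (univ : Finset ι))
    (show Module.finrank K V ≤ (univ : Finset ι).card by rw [card_univ]; omega)
  obtain ⟨i, hi⟩ : Tᶜ.Nonempty := card_pos.1 (by rw [card_compl]; omega)
  have hspan : Submodule.span K (l '' T) = ⊤ := hl.span_eq_top hT.ge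
  obtain ⟨E, hE⟩ := exists_ratio_of_relation S l i T (hspan ▸ Submodule.mem_top)
  refine ⟨(T ×ˢ E).image fun q => l q.1 - q.2 • l i, fun φ hφ => ?_, fun x hx => ?_⟩
  · obtain ⟨⟨j, e⟩, hje, rfl⟩ := mem_image.1 hφ
    rw [mem_product] at hje
    intro h0
    have hij : j ≠ i := fun h => mem_compl.1 hi (h ▸ hje.1)
    have h2 := hl {j, i} (by rw [card_pair hij]; exact hV)
    have := (linearIndependent_iff'.1 h2) univ
      (fun k => if (k : ι) = j then 1 else -e) (by
        rw [← h0, sum_coe_sort ({j, i} : Finset ι) (fun k => (if k = j then 1 else -e) • l k),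
          sum_pair hij]
        rw [if_pos rfl, if_neg hij.symm, one_smul, sub_eq_add_neg]
        congr 1
        module) ⟨j, by simp⟩ (mem_univ _)
    simp at this
  · obtain ⟨j, hj, hje⟩ := hE x hx
    refine ⟨_, mem_image.2 ⟨(j, l j x / l i x), mem_product.2 ⟨hj, hje⟩, rfl⟩, ?_⟩
    simp [hx.1 i]

end FA.DecomposableForms

end
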