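import Fermat.Agent.Gyory.Tuples
import Fermat.Agent.Subspace.UnitEquationNumberField
import Mathlib.LinearAlgebra.Dual.Lemmas

/-!
# The criterion of Evertse and Győry

A finite family of linear forms over a number field is connected if it has full rank and any
splitting into two nonempty parts has some form in both spans. Then the unit equation bounds the
ratios of the values at points where these are `S`-units: finitely many points up to scaling.
Otherwise `2 ^ k x₁ + x₂` is an infinite family for a suitable `S`.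
-/

set_option autoImplicit false

noncomputable section

open NumberField IsDedekindDomain Finset

namespace FA.DecomposableForms

variable {K : Type*} [Field K] [NumberField K] {V : Type*} [AddCommGroup V] [Module K V]
variable {ι : Type*}

/-- The points where all forms take values with ratios units outside `S`. -/
def IsUnitPoint (S : Finset (HeightOneSpectrum (𝓞 K))) (l : ι → Module.Dual K V) (x : V) : Prop :=
  (∀ i, l i x ≠ 0) ∧ ∀ i j, Gyory.IsSUnit S (l i x / l j x)

/-- Full rank, and every splitting has a form in both spans. -/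
def Connected [Fintype ι] [DecidableEq ι] (l : ι → Module.Dual K V) : Prop :=
  Submodule.span K (Set.range l) = ⊤ ∧ ∀ T : Finset ι, T.Nonempty → Tᶜ.Nonempty →
    ∃ i, l i ∈ Submodule.span K (l '' T) ⊓ Submodule.span K (l '' ↑Tᶜ)

theorem finite_unit_equation_fintype (S : Finset (HeightOneSpectrum (𝓞 K))) {J : Type*}
    [Fintype J] (a : J → K) :
    ∃ E : Finset K, ∀ z : J → K, (∀ j, a j ≠ 0) → (∀ j, Gyory.IsSUnit S (z j)) →
      ∑ j, a j * z j = 1 → (∀ T : Finset J, T.Nonempty → ∑ j ∈ T, a j * z j ≠ 0) →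
      ∀ j, z j ∈ E := by
  classical
  by_cases ha : ∀ j, a j ≠ 0
  swap
  · exact ⟨∅, fun z h => absurd h ha⟩
  set e := (Fintype.equivFin J).symm
  set F := (Subspace.finite_sUnit_equation S (a ∘ e) fun i => ha (e i)).toFinset
  refine ⟨F.biUnion fun u => univ.image fun i => (u i : K), fun z _ hz hsum hnd j => ?_⟩
  refine mem_biUnion.2 ⟨fun i => Units.mk0 _ (hz (e i)).ne_zero, (Set.Finite.mem_toFinset _).2
    ⟨fun i => Subspace.mem_unit_iff.2 (hz (e i)).2, ?_, fun T hT h0 => hnd (T.image e)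
      (hT.image e) ?_⟩, mem_image.2 ⟨e.symm j, mem_univ _, by simp⟩⟩
  · simpa [Function.comp_def] using (Equiv.sum_comp e fun j => a j * z j).trans hsum
  · rw [sum_image e.injective.injOn]
    simpa [Function.comp_def] using h0

/-- Along a relation two values have a ratio in a finite set. -/
theorem exists_ratio_of_relation [Fintype ι] (S : Finset (HeightOneSpectrum (𝓞 K)))
    (l : ι → Module.Dual K V) (i : ι) (T : Finset ι) (hi : l i ∈ Submodule.span K (l '' T)) :
    ∃ E : Finset K, ∀ x, IsUnitPoint S l x → ∃ j ∈ T, l j x / l i x ∈ E := by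
  classical
  obtain ⟨c, hc⟩ : ∃ c : ι → K, ∑ j ∈ T, c j • l j = l i := by
    rw [Submodule.mem_span_image_finset_iff_exists_fun] at hi
    obtain ⟨c, hc⟩ := hi
    refine ⟨fun j => if h : j ∈ T then c ⟨j, h⟩ else 0, ?_⟩
    rw [← hc, ← sum_coe_sort T]
    exact sum_congr rfl fun j _ => by simp [j.2]
  choose E hE using fun J : Finset ι => finite_unit_equation_fintype S (J := J) fun j => c j
  refine ⟨(T.powerset).biUnion E, fun x hx => ?_⟩
  set r := fun j => l j x / l i x
  have hsum : ∑ j ∈ T, c j * r j = 1 := by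
    have h := LinearMap.congr_fun hc x
    simp only [LinearMap.sum_apply, LinearMap.smul_apply, smul_eq_mul] at h
    simp only [r, ← mul_div_assoc, ← sum_div, h, div_self (hx.1 i)]
  set good := T.powerset.filter fun J => ∑ j ∈ J, c j * r j = 1
  obtain ⟨J, hJ, hmin⟩ := good.exists_min_image Finset.card
    ⟨T, mem_filter.2 ⟨mem_powerset_self T, hsum⟩⟩
  obtain ⟨hJT, hJ1⟩ := mem_filter.1 hJ
  rw [mem_powerset] at hJT
  have hnd : ∀ R ⊆ J, R.Nonempty → ∑ j ∈ R, c j * r j ≠ 0 := fun R hRJ hR h0 => by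
    have h1 : ∑ j ∈ J \ R, c j * r j = 1 := by
      rw [← hJ1, ← sum_sdiff hRJ, h0, add_zero]
    have h2 := hmin (J \ R) (mem_filter.2 ⟨mem_powerset.2 (sdiff_subset.trans hJT), h1⟩)
    have h3 := card_sdiff_add_card_eq_card hRJ
    have h4 := hR.card_pos
    omega
  obtain ⟨j, hj⟩ : J.Nonempty := nonempty_iff_ne_empty.2 fun h => by simp [h] at hJ1
  refine ⟨j, hJT hj, mem_biUnion.2 ⟨J, mem_powerset.2 hJT, ?_⟩⟩
  refine hE J (fun j => r j) (fun j h => hnd {(j : ι)} (by simp) (singleton_nonempty _) (by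
    simp [h])) (fun j => hx.2 _ _) ?_ (fun R hR => ?_) ⟨j, hj⟩
  · rw [← hJ1, sum_coe_sort J fun j => c j * r j]
  · have h := hnd (R.map (Function.Embedding.subtype _)) (fun a ha => by
      obtain ⟨b, -, rfl⟩ := Finset.mem_map.1 ha
      exact b.2) (hR.map)
    rwa [Finset.sum_map] at h

/-- **Finiteness**: connected families have finitely many unit points up to scaling. -/
theorem exists_finite_unitPoints [Fintype ι] [DecidableEq ι] {l : ι → Module.Dual K V}
    [Nonempty ι] [FiniteDimensional K V] (hl : Connected l)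
    (S : Finset (HeightOneSpectrum (𝓞 K))) :
    ∃ F : Finset V, ∀ x, IsUnitPoint S l x → ∃ y ∈ F, ∃ c : K, c ≠ 0 ∧ x = c • y := by
  classical
  obtain ⟨hspan, hsplit⟩ := hl
  choose R hR using fun p : {p : ι × Finset ι // l p.1 ∈ Submodule.span K (l '' p.2)} =>
    exists_ratio_of_relation S l p.1.1 p.1.2 p.2
  set E : Finset K := univ.biUnion R
  set step : Finset K → Finset K := fun A =>
    A ∪ (A ×ˢ E).image (fun q => q.1 * q.2) ∪ (A ×ˢ E).image fun q => q.1 / q.2
  let G : ℕ → Finset K := fun k => step^[k] {1}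
  obtain ⟨i₀⟩ := ‹Nonempty ι›
  have hfill : ∀ x, IsUnitPoint S l x → ∀ k, k + 1 ≤ Fintype.card ι →
      k + 1 ≤ (univ.filter fun i => l i x / l i₀ x ∈ G k).card := by
    intro x hx k
    induction k with
    | zero =>
      refine fun _ => card_pos.2 ⟨i₀, ?_⟩
      simp [G, div_self (hx.1 i₀)]
    | succ k ih =>
      intro hk
      set T := univ.filter fun i => l i x / l i₀ x ∈ G k with hT
      have hih : k + 1 ≤ T.card := ih (by omega)
      have hG : G (k + 1) = step (G k) := Function.iterate_succ_apply' step k _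
      have hsub : T ⊆ univ.filter fun i => l i x / l i₀ x ∈ G (k + 1) := fun i hi => by
        refine mem_filter.2 ⟨mem_univ i, ?_⟩
        rw [hG]
        exact mem_union_left _ (mem_union_left _ (mem_filter.1 hi).2)
      rcases (Tᶜ).eq_empty_or_nonempty with hc | hc
      · rw [compl_eq_empty_iff] at hc
        have := card_le_card hsub
        rw [hc, card_univ] at this
        omega
      obtain ⟨i, hi1, hi2⟩ := hsplit T (card_pos.1 (by omega)) hc
      obtain ⟨j, hjT, hj⟩ : ∃ j ∉ T, l j x / l i₀ x ∈ G (k + 1) := by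
        have hmemE : ∀ (U : Finset ι), l i ∈ Submodule.span K (l '' U) →
            ∃ j ∈ U, l j x / l i x ∈ E := fun U hU => by
          obtain ⟨j, hj, hjE⟩ := hR ⟨(i, U), hU⟩ x hx
          exact ⟨j, hj, mem_biUnion.2 ⟨_, mem_univ _, hjE⟩⟩
        have h0 := hx.1 i₀
        have hi0 := hx.1 i
        by_cases hiT : i ∈ T
        · obtain ⟨j, hj, hjE⟩ := hmemE _ hi2
          refine ⟨j, mem_compl.1 hj, ?_⟩
          rw [hG]
          refine mem_union_left _ (mem_union_right _ (mem_image.2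
            ⟨(_, _), mem_product.2 ⟨(mem_filter.1 hiT).2, hjE⟩, ?_⟩))
          field_simp
        · obtain ⟨j, hj, hjE⟩ := hmemE _ hi1
          refine ⟨i, hiT, ?_⟩
          rw [hG]
          refine mem_union_right _ (mem_image.2
            ⟨(_, _), mem_product.2 ⟨(mem_filter.1 hj).2, hjE⟩, ?_⟩)
          have := hx.1 j
          field_simp
      have hlt : T.card < (univ.filter fun i => l i x / l i₀ x ∈ G (k + 1)).card :=
        card_lt_card ⟨hsub, fun h => hjT (h (mem_filter.2 ⟨mem_univ j, hj⟩))⟩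
      omega
  set m := Fintype.card ι
  have hm : 0 < m := Fintype.card_pos
  have hinj : ∀ y z : V, (∀ i, l i y = l i z) → y = z := by
    intro y z h
    refine sub_eq_zero.1 ((Module.forall_dual_apply_eq_zero_iff K (y - z)).1 fun φ => ?_)
    have hφ : φ ∈ Submodule.span K (Set.range l) := hspan ▸ Submodule.mem_top
    refine Submodule.span_induction ?_ ?_ ?_ ?_ hφ
    · rintro _ ⟨i, rfl⟩
      rw [map_sub, h i, sub_self]
    · simp
    · intro a b _ _ ha hb
      simp [ha, hb]
    · intro a b _ hb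
      simp [hb]
  set cand := Fintype.piFinset fun _ : ι => G (m - 1)
  set pick : (ι → K) → V := fun r => if h : ∃ y, ∀ i, l i y = r i then h.choose else 0
  refine ⟨cand.image pick, fun x hx => ?_⟩
  have hall : ∀ i, l i x / l i₀ x ∈ G (m - 1) := fun i => by
    have h := hfill x hx (m - 1) (by omega)
    have e : (univ.filter fun i => l i x / l i₀ x ∈ G (m - 1)) = univ :=
      eq_univ_of_card _ (le_antisymm (card_le_univ _) (by omega))
    have hi : i ∈ univ.filter fun i => l i x / l i₀ x ∈ G (m - 1) := by rw [e]; exact mem_univ i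
    exact (mem_filter.1 hi).2
  have hex : ∃ y, ∀ i, l i y = l i x / l i₀ x :=
    ⟨(l i₀ x)⁻¹ • x, fun i => by rw [map_smul, smul_eq_mul, inv_mul_eq_div]⟩
  refine ⟨pick fun i => l i x / l i₀ x, mem_image_of_mem _ (Fintype.mem_piFinset.2 hall),
    l i₀ x, hx.1 i₀, hinj _ _ fun i => ?_⟩
  rw [map_smul, smul_eq_mul, show pick (fun i => l i x / l i₀ x) = hex.choose from dif_pos hex,
    hex.choose_spec i, mul_div_cancel₀ _ (hx.1 i₀)]

/-- Finitely many nonzero numbers are units outside a finite set of primes. -/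
theorem exists_primes_isSUnit {J : Type*} [Fintype J] (a : J → K) (ha : ∀ j, a j ≠ 0) :
    ∃ S : Finset (HeightOneSpectrum (𝓞 K)), ∀ j, Gyory.IsSUnit S (a j) := by
  choose p q hq hpq using fun j => IsFractionRing.div_surjective (𝓞 K) (a j)
  have hp : ∀ j, p j ≠ 0 := fun j h => ha j (by rw [← hpq, h, map_zero, zero_div])
  obtain ⟨S, hS⟩ := Subspace.exists_primes_unit (K := K) (Sum.elim p q) (fun j => by
    cases j with
    | inl j => exact hp j
    | inr j => exact nonZeroDivisors.ne_zero (hq j))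
  refine ⟨S, fun j => ⟨ha j, fun v hv => ?_⟩⟩
  rw [← hpq, map_div₀]
  rw [show HeightOneSpectrum.adicAbv K v (algebraMap (𝓞 K) K (p j)) = 1 from hS (Sum.inl j) v hv,
    show HeightOneSpectrum.adicAbv K v (algebraMap (𝓞 K) K (q j)) = 1 from hS (Sum.inr j) v hv,
    div_one]

/-- A point off finitely many proper hyperplanes. -/
theorem exists_forall_apply_ne_zero [Fintype ι] {W : Type*} [AddCommGroup W] [Module K W]
    (l : ι → Module.Dual K W) (hl : ∀ i, l i ≠ 0) : ∃ x : W, ∀ i, l i x ≠ 0 := by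
  classical
  suffices h : ∀ s : Finset ι, ∃ x : W, ∀ i ∈ s, l i x ≠ 0 by
    obtain ⟨x, hx⟩ := h univ
    exact ⟨x, fun i => hx i (mem_univ i)⟩
  intro s
  induction s using Finset.induction with
  | empty => exact ⟨0, by simp⟩
  | insert a s has ih =>
    obtain ⟨x, hx⟩ := ih
    obtain ⟨y, hy⟩ : ∃ y, l a y ≠ 0 := by
      by_contra! h
      exact hl a (LinearMap.ext h)
    set bad : Finset K := (insert a s).image fun i => -l i x / l i y
    obtain ⟨t, ht⟩ := Infinite.exists_notMem_finset bad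
    refine ⟨x + t • y, fun i hi h => ?_⟩
    rw [map_add, map_smul, smul_eq_mul] at h
    by_cases hiy : l i y = 0
    · rw [hiy, mul_zero, add_zero] at h
      rcases mem_insert.1 hi with rfl | hi
      · exact hy hiy
      · exact hx i hi h
    · exact ht (mem_image.2 ⟨i, hi, by rw [div_eq_iff hiy]; linear_combination -h⟩)

/-- A functional vanishing on `A₁ ⊓ A₂`, cut off at `A₂`. -/
theorem exists_cut {F W : Type*} [Field F] [AddCommGroup W] [Module F W] (A₁ A₂ : Submodule F W)
    (e : W →ₗ[F] F) (he : ∀ a ∈ A₁ ⊓ A₂, e a = 0) :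
    ∃ ψ : W →ₗ[F] F, (∀ a ∈ A₁, ψ a = e a) ∧ ∀ b ∈ A₂, ψ b = 0 := by
  have h : e.comp A₁.subtype ∈ LinearMap.range (A₂.mkQ.comp A₁.subtype).dualMap := by
    rw [LinearMap.range_dualMap_eq_dualAnnihilator_ker, Submodule.mem_dualAnnihilator]
    intro a ha
    rw [LinearMap.mem_ker, LinearMap.comp_apply, Submodule.mkQ_apply,
      Submodule.Quotient.mk_eq_zero] at ha
    exact he _ (Submodule.mem_inf.2 ⟨a.2, ha⟩)
  obtain ⟨ψ, hψ⟩ := h
  exact ⟨ψ.comp A₂.mkQ, fun a ha => LinearMap.congr_fun hψ ⟨a, ha⟩, fun b hb => by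
    rw [LinearMap.comp_apply, Submodule.mkQ_apply, (Submodule.Quotient.mk_eq_zero A₂).2 hb,
      map_zero]⟩

/-- **The converse**: without connectedness some `S` has infinitely many unit points, no two of
them proportional. -/
theorem exists_infinite_unitPoints [Fintype ι] [DecidableEq ι] [Nonempty ι] [FiniteDimensional K V]
    {l : ι → Module.Dual K V} (h0 : ∀ i, l i ≠ 0) (hl : ¬Connected l) :
    ∃ (S : Finset (HeightOneSpectrum (𝓞 K))) (x : ℕ → V),
      (∀ k, IsUnitPoint S l (x k)) ∧ ∀ k k' (c : K), x k = c • x k' → k = k' := by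
  classical
  obtain ⟨i₀⟩ := ‹Nonempty ι›
  by_cases hspan : Submodule.span K (Set.range l) = ⊤
  swap
  · obtain ⟨z, hz, hz0⟩ : ∃ z : V, (∀ i, l i z = 0) ∧ z ≠ 0 := by
      by_contra! h
      refine hspan (?_ : Submodule.span K (Set.range l) = ⊤)
      have e : (Submodule.span K (Set.range l)).dualCoannihilator = ⊥ :=
        eq_bot_iff.2 fun z hz => (Submodule.mem_bot K).2 (h z fun i =>
          (Submodule.mem_dualCoannihilator z).1 hz _ (Submodule.subset_span ⟨i, rfl⟩))
      rw [← Subspace.dualCoannihilator_dualAnnihilator_eq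
        (W := Submodule.span K (Set.range l)), e, Submodule.dualAnnihilator_bot]
    obtain ⟨x₀, hx₀⟩ := exists_forall_apply_ne_zero l h0
    obtain ⟨S, hS⟩ := exists_primes_isSUnit (fun p : ι × ι => l p.1 x₀ / l p.2 x₀)
      fun p => div_ne_zero (hx₀ _) (hx₀ _)
    have e : ∀ (k : ℕ) i, l i (x₀ + (k : K) • z) = l i x₀ := fun k i => by
      rw [map_add, map_smul, hz, smul_zero, add_zero]
    refine ⟨S, fun k => x₀ + (k : K) • z, fun k => ⟨fun i => by rw [e]; exact hx₀ i,
      fun i j => by rw [e, e]; exact hS (i, j)⟩, fun k k' c h => ?_⟩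
    have h1 := congrArg (l i₀) h
    simp only [map_smul, e, smul_eq_mul] at h1
    obtain rfl : c = 1 := (mul_eq_right₀ (hx₀ i₀)).1 h1.symm
    rw [one_smul, add_right_inj] at h
    exact Nat.cast_injective (smul_left_injective K hz0 h)
  simp only [Connected, hspan, true_and, not_forall, not_exists] at hl
  obtain ⟨T, hT, hTc, hno⟩ := hl
  set A₁ := Submodule.span K (l '' T)
  set A₂ := Submodule.span K (l '' ↑Tᶜ)
  set V₀ := (A₁ ⊓ A₂).dualCoannihilator
  obtain ⟨⟨x₀, hx₀V⟩, hx₀⟩ := exists_forall_apply_ne_zero (fun i => (l i).domRestrict V₀)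
    fun i h => hno i <| by
      rw [← Subspace.dualCoannihilator_dualAnnihilator_eq (W := A₁ ⊓ A₂),
        Submodule.mem_dualAnnihilator]
      exact fun z hz => LinearMap.congr_fun h ⟨z, hz⟩
  replace hx₀ : ∀ i, l i x₀ ≠ 0 := hx₀
  obtain ⟨ψ, hψ₁, hψ₂⟩ := exists_cut A₁ A₂ (Module.Dual.eval K V x₀)
    fun a ha => (Submodule.mem_dualCoannihilator x₀).1 hx₀V a ha
  obtain ⟨x₁, hx₁⟩ : ∃ x₁ : V, ∀ φ : Module.Dual K V, φ x₁ = ψ φ :=
    ⟨(Module.evalEquiv K V).symm ψ, fun φ => by simp⟩
  have hin : ∀ i ∈ T, l i x₁ = l i x₀ := fun i hi => by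
    rw [hx₁, hψ₁ _ (Submodule.subset_span ⟨i, hi, rfl⟩), Module.Dual.eval_apply]
  have hout : ∀ i ∉ T, l i x₁ = 0 := fun i hi => by
    rw [hx₁, hψ₂ _ (Submodule.subset_span ⟨i, by simpa using hi, rfl⟩)]
  set x : ℕ → V := fun k => (2 : K) ^ k • x₁ + (x₀ - x₁)
  have hval : ∀ k i, l i (x k) = (if i ∈ T then (2 : K) ^ k else 1) * l i x₀ := fun k i => by
    by_cases hi : i ∈ T
    · simp [x, hin i hi, hi]
    · simp [x, hout i hi, hi]
  obtain ⟨S, hS⟩ := exists_primes_isSUnit
    (Sum.elim (fun p : ι × ι => l p.1 x₀ / l p.2 x₀) fun _ : Unit => (2 : K))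
    fun p => by
      cases p with
      | inl p => exact div_ne_zero (hx₀ _) (hx₀ _)
      | inr _ => exact two_ne_zero
  have hpow : ∀ k i, Gyory.IsSUnit S (if i ∈ T then (2 : K) ^ k else 1) := fun k i => by
    split
    · exact ⟨pow_ne_zero _ two_ne_zero, fun v hv => by
        rw [map_pow, (show Gyory.IsSUnit S (2 : K) from hS (Sum.inr ())).2 v hv, one_pow]⟩
    · exact ⟨one_ne_zero, fun v _ => map_one _⟩
  refine ⟨S, x, fun k => ⟨fun i => ?_, fun i j => ?_⟩, fun k k' c h => ?_⟩
  · rw [hval]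
    exact mul_ne_zero (hpow k i).ne_zero (hx₀ i)
  · rw [hval, hval, mul_div_mul_comm]
    have h1 := (hpow k i).div (hpow k j)
    exact ⟨mul_ne_zero h1.1 (hS (Sum.inl (i, j))).1, fun v hv => by
      rw [map_mul, h1.2 v hv, one_mul]; exact (hS (Sum.inl (i, j))).2 v hv⟩
  obtain ⟨i, hi⟩ := hT
  obtain ⟨j, hj⟩ := hTc
  have h1 := congrArg (l j) h
  have h2 := congrArg (l i) h
  simp only [map_smul, hval, smul_eq_mul, hi, mem_compl.1 hj, if_true, if_false, one_mul] at h1 h2
  obtain rfl : c = 1 := (mul_eq_right₀ (hx₀ j)).1 h1.symm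
  rw [one_mul] at h2
  exact Nat.pow_right_injective le_rfl
    (by exact_mod_cast mul_right_cancel₀ (hx₀ i) h2 : (2 : ℕ) ^ k = 2 ^ k')

/-- **The criterion of Evertse and Győry.** -/
theorem connected_iff [Fintype ι] [DecidableEq ι] [Nonempty ι] [FiniteDimensional K V]
    {l : ι → Module.Dual K V} (h0 : ∀ i, l i ≠ 0) :
    Connected l ↔ ∀ S : Finset (HeightOneSpectrum (𝓞 K)),
      ∃ F : Finset V, ∀ x, IsUnitPoint S l x → ∃ y ∈ F, ∃ c : K, c ≠ 0 ∧ x = c • y := by
  refine ⟨fun h S => exists_finite_unitPoints h S, fun h => ?_⟩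
  by_contra hl
  obtain ⟨S, x, hx, hinj⟩ := exists_infinite_unitPoints h0 hl
  obtain ⟨F, hF⟩ := h S
  choose y hy c hc e using fun k => hF (x k) (hx k)
  obtain ⟨k, k', hne, hk⟩ := Finite.exists_ne_map_eq_of_infinite fun k => (⟨y k, hy k⟩ : F)
  refine hne (hinj k k' (c k / c k') ?_)
  rw [e k, e k', smul_smul, div_mul_cancel₀ _ (hc k'),
    show y k = y k' from congrArg Subtype.val hk]

end FA.DecomposableForms

end
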