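import Fermat.Agent.DecomposableForms.Criterion
import Mathlib.NumberTheory.NumberField.Completion.FinitePlace

/-!
# Decomposable form equations

With a connected family the equation `∏ l i (x) = μ`, `μ ≠ 0`, has finitely many solutions in
`S`-integers, as the values are units outside a larger finite set of primes.
-/

set_option autoImplicit false

noncomputable section

open NumberField IsDedekindDomain Finset

namespace FA.DecomposableForms

variable {K : Type*} [Field K] [NumberField K] {ι : Type*} [Fintype ι] [DecidableEq ι] {n : ℕ}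

theorem adicAbv_sum_le_one {J : Type*} (v : HeightOneSpectrum (𝓞 K)) (s : Finset J) (f : J → K)
    (h : ∀ j ∈ s, HeightOneSpectrum.adicAbv K v (f j) ≤ 1) :
    HeightOneSpectrum.adicAbv K v (∑ j ∈ s, f j) ≤ 1 := by
  classical
  induction s using Finset.induction with
  | empty => simp
  | insert a t ha ih =>
    rw [sum_insert ha]
    exact (NumberField.HeightOneSpectrum.adicAbv_add_le_max K v _ _).trans
      (max_le (h a (mem_insert_self a t)) (ih fun j hj => h j (mem_insert_of_mem hj)))

/-- **Decomposable form equations over the `S`-integers.** -/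
theorem finite_equation [Nonempty ι] {l : ι → Module.Dual K (Fin n → K)} (hl : Connected l)
    (S : Finset (HeightOneSpectrum (𝓞 K))) {μ : K} (hμ : μ ≠ 0) :
    {x : Fin n → K | (∀ j, ∀ v ∉ S, HeightOneSpectrum.adicAbv K v (x j) ≤ 1) ∧
      ∏ i, l i x = μ}.Finite := by
  classical
  set c : ι × Fin n → K := fun p => l p.1 (Pi.single p.2 1)
  obtain ⟨S₁, hS₁⟩ := exists_primes_isSUnit
    (Sum.elim (fun p : {p // c p ≠ 0} => c p.1) fun _ : Unit => μ) fun p => by
      cases p with
      | inl p => exact p.2
      | inr _ => exact hμ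
  obtain ⟨F, hF⟩ := exists_finite_unitPoints hl (S ∪ S₁)
  set m := Fintype.card ι
  refine (F.finite_toSet.biUnion fun y _ =>
    ((Polynomial.nthRoots m (μ / ∏ i, l i y)).toFinset.finite_toSet.image fun a => a • y)).subset
      fun x hx => ?_
  obtain ⟨hint, heq⟩ := hx
  have hne : ∀ i, l i x ≠ 0 := fun i h => hμ (by rw [← heq]; exact prod_eq_zero (mem_univ i) h)
  have hle : ∀ i, ∀ v ∉ S ∪ S₁, HeightOneSpectrum.adicAbv K v (l i x) ≤ 1 := by
    intro i v hv
    rw [mem_union, not_or] at hv
    rw [(l i).pi_apply_eq_sum_univ x]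
    refine adicAbv_sum_le_one v _ _ fun j _ => ?_
    rw [smul_eq_mul, map_mul]
    refine mul_le_one₀ (hint j v hv.1) (AbsoluteValue.nonneg _ _) ?_
    have e : l i (fun k => if j = k then (1 : K) else 0) = c (i, j) := by
      simp only [c]
      congr 1
      funext k
      simp [Pi.single_apply, eq_comm]
    rw [e]
    by_cases h0 : c (i, j) = 0
    · simp [h0]
    · exact ((hS₁ (Sum.inl ⟨(i, j), h0⟩)).2 v hv.2).le
  have hone : ∀ i, Gyory.IsSUnit (S ∪ S₁) (l i x) := fun i => ⟨hne i, fun v hv => by
    refine le_antisymm (hle i v hv) ?_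
    have h1 : HeightOneSpectrum.adicAbv K v μ = 1 :=
      (hS₁ (Sum.inr ())).2 v fun h => hv (mem_union_right _ h)
    rw [← heq, map_prod, ← mul_prod_erase univ _ (mem_univ i)] at h1
    exact h1.symm.trans_le (mul_le_of_le_one_right (AbsoluteValue.nonneg _ _)
      (prod_le_one (fun j _ => AbsoluteValue.nonneg _ _) fun j _ => hle j v hv))⟩
  obtain ⟨y, hy, a, -, rfl⟩ := hF x ⟨hne, fun i j => (hone i).div (hone j)⟩
  refine Set.mem_biUnion hy ⟨a, ?_, rfl⟩
  simp only [map_smul, smul_eq_mul, prod_mul_distrib, prod_const, card_univ] at heq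
  rw [Finset.mem_coe, Multiset.mem_toFinset, Polynomial.mem_nthRoots Fintype.card_pos, ← heq,
    mul_div_cancel_right₀]
  exact right_ne_zero_of_mul (heq ▸ hμ)

/-- **Decomposable form equations over `ℤ`**; the forms may have coefficients in any number
field. -/
theorem finite_equation_int [Nonempty ι] {l : ι → Module.Dual K (Fin n → K)} (hl : Connected l)
    {μ : K} (hμ : μ ≠ 0) :
    {x : Fin n → ℤ | ∏ i, l i (fun j => (x j : K)) = μ}.Finite := by
  refine ((finite_equation hl ∅ hμ).preimage (f := fun (x : Fin n → ℤ) j => (x j : K))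
    fun x _ y _ h => funext fun j => Int.cast_injective (congrFun h j)).subset fun x hx =>
      ⟨fun j v _ => NumberField.HeightOneSpectrum.adicAbv_intCast_le_one K v _, hx⟩

end FA.DecomposableForms

end
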