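import Fermat.Agent.DecomposableForms.GeneralPosition
import Fermat.Agent.DecomposableForms.Equation
import Mathlib.FieldTheory.SplittingField.Construction
import Mathlib.RingTheory.Polynomial.Resultant.Basic

/-!
# Resultant equations

The values at distinct points are forms in general position on the polynomials of degree `≤ m`, so
more than `2 m` of them are connected and `Res(f, g) = r` has finitely many solutions `g` in
integral polynomials of degree `≤ m` when `f` is separable of degree more than `2 m`.
-/

set_option autoImplicit false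

noncomputable section

open NumberField IsDedekindDomain Polynomial Finset

namespace FA.DecomposableForms

variable {K : Type*} [Field K] [NumberField K] {ι : Type*}

/-- The value at `θ` as a form in the coefficients. -/
def evalForm (m : ℕ) (θ : K) : Module.Dual K (Fin (m + 1) → K) :=
  ∑ k : Fin (m + 1), θ ^ (k : ℕ) • LinearMap.proj k

theorem evalForm_apply (m : ℕ) (θ : K) (c : Fin (m + 1) → K) :
    evalForm m θ c = ∑ k, c k * θ ^ (k : ℕ) := by
  simp [evalForm, mul_comm]

theorem evalForm_coeff {m : ℕ} {P : K[X]} (hP : P.natDegree ≤ m) (θ : K) :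
    evalForm m θ (fun k => P.coeff k) = P.eval θ := by
  rw [evalForm_apply, eval_eq_sum_range' (Nat.lt_succ_of_le hP)]
  exact Fin.sum_univ_eq_sum_range (fun k => P.coeff k * θ ^ k) _

/-- **The values at distinct points are forms in general position.** -/
theorem inGeneralPosition_evalForm {θ : ι → K} (hθ : Function.Injective θ) (m : ℕ) :
    InGeneralPosition fun i => evalForm m (θ i) := by
  classical
  intro T hT
  rw [Module.finrank_fin_fun] at hT
  refine linearIndependent_iff'.2 fun s g hg j hj => ?_
  set P : K[X] := ∏ i ∈ T.erase j, (X - C (θ i)) with hPdef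
  have hP : P.natDegree ≤ m := by
    rw [hPdef, natDegree_prod_of_monic _ _ fun i _ => monic_X_sub_C _]
    simp only [natDegree_X_sub_C, sum_const, smul_eq_mul, mul_one]
    rw [card_erase_of_mem j.2]
    omega
  have h := LinearMap.congr_fun hg fun k => P.coeff k
  simp only [LinearMap.coe_sum, Finset.sum_apply, LinearMap.smul_apply, LinearMap.zero_apply,
    evalForm_coeff hP, smul_eq_mul] at h
  rw [sum_eq_single j] at h
  · refine (mul_eq_zero.1 h).resolve_right ?_
    rw [hPdef, eval_prod]
    refine prod_ne_zero_iff.2 ?_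
    intro i hi
    simp [sub_eq_zero, hθ.eq_iff, (ne_of_mem_erase hi).symm]
  · intro i _ hij
    rw [hPdef, eval_prod, prod_eq_zero (mem_erase.2 ⟨fun e => hij (Subtype.ext e), i.2⟩) (by simp),
      mul_zero]
  · exact fun h => absurd hj h

variable [Fintype ι]

theorem connected_evalForm [DecidableEq ι] {θ : ι → K} (hθ : Function.Injective θ) {m : ℕ}
    (hm : 2 * m < Fintype.card ι) : Connected fun i => evalForm m (θ i) :=
  (inGeneralPosition_evalForm hθ m).connected (by rw [Module.finrank_fin_fun]; omega)
    (by rw [Module.finrank_fin_fun]; omega)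

/-- **Resultant equations over the `S`-integers**, with the roots in the field. -/
theorem finite_prod_eval {θ : ι → K} (hθ : Function.Injective θ) {m : ℕ}
    (hm : 2 * m < Fintype.card ι) (S : Finset (HeightOneSpectrum (𝓞 K))) {μ : K} (hμ : μ ≠ 0) :
    {g : K[X] | g.natDegree ≤ m ∧ (∀ k, ∀ v ∉ S, HeightOneSpectrum.adicAbv K v (g.coeff k) ≤ 1) ∧
      ∏ i, g.eval (θ i) = μ}.Finite := by
  classical
  haveI : Nonempty ι := Fintype.card_pos_iff.1 (by omega)
  refine Set.Finite.of_finite_image
    (f := fun (g : K[X]) (k : Fin (m + 1)) => g.coeff k)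
    ((finite_equation (connected_evalForm hθ hm) S hμ).subset ?_) fun g hg g' hg' h => ?_
  · rintro _ ⟨g, ⟨hg, hint, heq⟩, rfl⟩
    exact ⟨fun k => hint k, by simpa only [evalForm_coeff hg] using heq⟩
  · refine Polynomial.ext fun k => ?_
    by_cases hk : k < m + 1
    · exact congrFun h ⟨k, hk⟩
    · rw [coeff_eq_zero_of_natDegree_lt (hg.1.trans_lt (by omega)),
        coeff_eq_zero_of_natDegree_lt (hg'.1.trans_lt (by omega))]

/-- **At most `2 m` points do not suffice.** -/
theorem exists_infinite_eval [DecidableEq ι] {θ : ι → K} (hθ : Function.Injective θ) {m : ℕ}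
    (h2 : 2 ≤ Fintype.card ι) (hm : Fintype.card ι ≤ 2 * m) :
    ∃ (S : Finset (HeightOneSpectrum (𝓞 K))) (c : ℕ → Fin (m + 1) → K),
      (∀ k, IsUnitPoint S (fun i => evalForm m (θ i)) (c k)) ∧
        ∀ k k' (a : K), c k = a • c k' → k = k' := by
  haveI : Nonempty ι := Fintype.card_pos_iff.1 (by omega)
  have hg := inGeneralPosition_evalForm hθ m
  exact exists_infinite_unitPoints
    (hg.ne_zero (by rw [Module.finrank_fin_fun]; omega))
    (hg.not_connected h2 (by rw [Module.finrank_fin_fun]; omega))

/-- **Resultant equations over `ℤ`.** -/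
theorem finite_resultant {f : ℤ[X]} (hsep : (f.map (Int.castRingHom ℚ)).Separable) {m : ℕ}
    (hm : 2 * m < f.natDegree) {r : ℤ} (hr : r ≠ 0) :
    {g : ℤ[X] | g.natDegree ≤ m ∧ f.resultant g f.natDegree m = r}.Finite := by
  classical
  let L := (f.map (Int.castRingHom ℚ)).SplittingField
  haveI : CharZero L := charZero_of_injective_algebraMap (algebraMap ℚ L).injective
  haveI : NumberField L := { }
  set φ : ℤ →+* L := Int.castRingHom L
  have hcomp : (f.map (Int.castRingHom ℚ)).map (algebraMap ℚ L) = f.map φ := by
    rw [Polynomial.map_map]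
    congr 1
  have hsplit : (f.map φ).Splits := hcomp ▸ SplittingField.splits _
  have hnd : (f.map φ).roots.Nodup := nodup_roots (hcomp ▸ hsep.map)
  have hdeg : (f.map φ).natDegree = f.natDegree :=
    natDegree_map_eq_of_injective Int.cast_injective f
  have hf0 : (f.map φ).leadingCoeff ≠ 0 := by
    rw [leadingCoeff_ne_zero, Polynomial.map_ne_zero_iff Int.cast_injective]
    rintro rfl
    simp at hm
  have hcard : 2 * m < Fintype.card ↥(f.map φ).roots.toFinset := by
    rw [Fintype.card_coe, Multiset.toFinset_card_of_nodup hnd, ← hsplit.natDegree_eq_card_roots,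
      hdeg]
    exact hm
  have hμ : (r : L) / (f.map φ).leadingCoeff ^ m ≠ 0 :=
    div_ne_zero (Int.cast_ne_zero.2 hr) (pow_ne_zero _ hf0)
  refine ((finite_prod_eval (θ := fun x : ↥(f.map φ).roots.toFinset => (x : L))
    Subtype.val_injective hcard ∅ hμ).preimage (f := fun g : ℤ[X] => g.map φ)
      fun g _ g' _ h => map_injective φ Int.cast_injective h).subset fun g hg => ?_
  obtain ⟨hg, hres⟩ := hg
  refine ⟨natDegree_map_le.trans hg, fun k v _ => ?_, ?_⟩
  · rw [coeff_map]
    exact NumberField.HeightOneSpectrum.adicAbv_intCast_le_one L v _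
  · have h := resultant_eq_prod_eval (f.map φ) (g.map φ) m (natDegree_map_le.trans hg) hsplit
    rw [hdeg, resultant_map_map, hres] at h
    rw [eq_div_iff (pow_ne_zero _ hf0), show (r : L) = φ r from rfl, h, mul_comm,
      prod_coe_sort (f.map φ).roots.toFinset fun x => (g.map φ).eval x,
      Finset.prod_eq_multiset_prod, Multiset.toFinset_val, Multiset.dedup_eq_self.2 hnd]

/-- The resultant of `X² - 2` and a linear polynomial. -/
theorem resultant_sq_sub_two (a b : ℤ) :
    (X ^ 2 - C 2 : ℤ[X]).resultant (C a * X + C b) 2 1 = b ^ 2 - 2 * a ^ 2 := by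
  rw [resultant, Matrix.det_fin_three]
  simp [sylvester, Fin.addCases, coeff_X, coeff_C, -eq_intCast]
  ring

end FA.DecomposableForms

end
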